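import Fermat.Agent.BiluEquidistribution.Main
import Mathlib.Topology.MetricSpace.HausdorffDistance
import Mathlib.Analysis.SpecialFunctions.Trigonometric.Complex

/-!
# Consequences of Bilu's theorem

Few conjugates lie on a closed set meeting the circle in a null set, the primitive roots of unity
equidistribute, and the line `x + y = 1` has the Bogomolov property (Zhang).
-/

set_option autoImplicit false

noncomputable section

namespace FA.Bilu

open Filter Topology Finset Polynomial MeasureTheory Real

open scoped Classical in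
/-- A closed set meeting the unit circle in a null set contains few of the roots. -/
theorem tendsto_proportion {f : ℕ → ℤ[X]}
    (hsep : ∀ᶠ n in atTop, ((f n).map (Int.castRingHom ℂ)).Separable)
    (h0 : ∀ᶠ n in atTop, (f n).coeff 0 ≠ 0)
    (hdeg : Tendsto (fun n => (f n).natDegree) atTop atTop)
    (hM : Tendsto (fun n => logM (f n) / (f n).natDegree) atTop (𝓝 0))
    {A : Set ℂ} (hA : IsClosed A) (hnull : ∀ᵐ θ : ℝ, circleMap 0 1 θ ∉ A) :
    Tendsto (fun n => (#((rootSetC (f n)).filter (· ∈ A)) : ℝ) / #(rootSetC (f n))) atTop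
      (𝓝 0) := by
  rcases A.eq_empty_or_nonempty with rfl | hne
  · simp
  set G : ℕ → ℂ → ℝ := fun m z => max 0 (1 - (m : ℝ) * Metric.infDist z A) with hG
  have hGc : ∀ m, Continuous (G m) := fun m => by
    have := Metric.continuous_infDist_pt A
    fun_prop
  have hG0 : ∀ m z, 0 ≤ G m z := fun m z => le_max_left _ _
  have hG1 : ∀ m z, G m z ≤ 1 := fun m z => max_le zero_le_one
    (sub_le_self _ (mul_nonneg (Nat.cast_nonneg m) Metric.infDist_nonneg))
  -- the averages over the circle tend to zero
  have hI : Tendsto (fun m => circleAverage (fun z => (G m z : ℂ)) 0 1) atTop (𝓝 0) := by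
    have h := intervalIntegral.tendsto_integral_filter_of_dominated_convergence
      (μ := volume) (a := 0) (b := 2 * π) (l := atTop)
      (F := fun m θ => (G m (circleMap 0 1 θ) : ℂ)) (f := fun _ => (0 : ℂ)) (fun _ => (1 : ℝ))
      (Eventually.of_forall fun m => (Complex.continuous_ofReal.comp
        ((hGc m).comp (continuous_circleMap 0 1))).aestronglyMeasurable)
      (Eventually.of_forall fun m => Eventually.of_forall fun θ _ => by
        rw [Complex.norm_real, Real.norm_of_nonneg (hG0 _ _)]
        exact hG1 _ _)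
      intervalIntegrable_const
      (hnull.mono fun θ hθ _ => by
        have hpos : 0 < Metric.infDist (circleMap 0 1 θ) A :=
          (hA.notMem_iff_infDist_pos hne).1 hθ
        refine tendsto_const_nhds.congr' ?_
        filter_upwards [(tendsto_natCast_atTop_atTop.atTop_mul_const hpos).eventually
          (eventually_ge_atTop (1 : ℝ))] with m hm
        simp only [hG]
        rw [max_eq_left (by linarith), Complex.ofReal_zero])
    simp only [circleAverage_def]
    simpa using h.const_smul (2 * π)⁻¹
  rw [Metric.tendsto_atTop]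
  intro δ hδ
  obtain ⟨m, hm⟩ := (hI.eventually (Metric.ball_mem_nhds _ (half_pos hδ))).exists
  obtain ⟨N, hN⟩ := Metric.tendsto_atTop.1 (tendsto_mean_roots hsep h0 hdeg hM
    (g := fun z => (G m z : ℂ)) (Complex.continuous_ofReal.comp (hGc m)) (B := 1) fun z => by
      rw [Complex.norm_real, Real.norm_of_nonneg (hG0 _ _)]; exact hG1 _ _) (δ / 2) (by linarith)
  refine ⟨N, fun n hn => ?_⟩
  rw [Real.dist_eq, sub_zero, abs_of_nonneg (div_nonneg (Nat.cast_nonneg _) (Nat.cast_nonneg _))]
  have h1 : (#((rootSetC (f n)).filter (· ∈ A)) : ℝ) ≤ ∑ z ∈ rootSetC (f n), G m z := by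
    rw [Finset.card_filter, Nat.cast_sum]
    refine Finset.sum_le_sum fun z _ => ?_
    split_ifs with hz
    · simp [hG, Metric.infDist_zero_of_mem hz]
    · simpa using hG0 m z
  refine lt_of_le_of_lt (div_le_div_of_nonneg_right h1 (Nat.cast_nonneg _)) ?_
  have h2 : ‖mean (rootSetC (f n)) fun z => (G m z : ℂ)‖ < δ := by
    have h3 := hN n hn
    rw [dist_eq_norm] at h3
    have h4 : ‖circleAverage (fun z => (G m z : ℂ)) 0 1‖ < δ / 2 := by
      simpa [dist_eq_norm] using hm
    calc _ ≤ _ := norm_le_norm_sub_add _ (circleAverage (fun z => (G m z : ℂ)) 0 1)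
      _ < δ := by linarith
  rwa [mean, ← Complex.ofReal_natCast, ← Complex.ofReal_sum, ← Complex.ofReal_div,
    Complex.norm_real, Real.norm_of_nonneg (div_nonneg
      (Finset.sum_nonneg fun z _ => hG0 m z) (Nat.cast_nonneg _))] at h2

/-- Few conjugates are real. -/
theorem tendsto_proportion_real {f : ℕ → ℤ[X]}
    (hsep : ∀ᶠ n in atTop, ((f n).map (Int.castRingHom ℂ)).Separable)
    (h0 : ∀ᶠ n in atTop, (f n).coeff 0 ≠ 0)
    (hdeg : Tendsto (fun n => (f n).natDegree) atTop atTop)
    (hM : Tendsto (fun n => logM (f n) / (f n).natDegree) atTop (𝓝 0)) :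
    Tendsto (fun n => (#((rootSetC (f n)).filter (·.im = 0)) : ℝ) / #(rootSetC (f n))) atTop
      (𝓝 0) := by
  classical
  refine tendsto_proportion hsep h0 hdeg hM
    (A := {z : ℂ | z.im = 0}) (isClosed_eq Complex.continuous_im continuous_const) ?_
  filter_upwards [(Set.countable_range fun k : ℤ => (k : ℝ) * π).ae_notMem (volume : Measure ℝ)]
    with θ hθ h
  refine hθ ?_
  rw [circleMap_zero, Complex.ofReal_one, one_mul,
    Complex.exp_ofReal_mul_I_im, Real.sin_eq_zero_iff] at h
  obtain ⟨k, hk⟩ := h
  exact ⟨k, hk⟩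

theorem rootSetC_cyclotomic (n : ℕ) [NeZero (n : ℂ)] :
    rootSetC (cyclotomic n ℤ) = primitiveRoots n ℂ := by
  rw [rootSetC, map_cyclotomic, cyclotomic.roots_eq_primitiveRoots_val]
  exact Finset.val_toFinset _

/-- **The primitive roots of unity equidistribute.** -/
theorem tendsto_mean_primitiveRoots {g : ℂ → ℂ} (hg : Continuous g) {B : ℝ}
    (hB : ∀ z, ‖g z‖ ≤ B) :
    Tendsto (fun n => mean (primitiveRoots n ℂ) g) atTop (𝓝 (circleAverage g 0 1)) := by
  rw [← tendsto_add_atTop_iff_nat 1]
  have h : ∀ n : ℕ, rootSetC (cyclotomic (n + 1) ℤ) = primitiveRoots (n + 1) ℂ := fun n => by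
    have : NeZero ((n + 1 : ℕ) : ℂ) := ⟨Nat.cast_ne_zero.2 n.succ_ne_zero⟩
    exact rootSetC_cyclotomic _
  have hM : ∀ n : ℕ, logM (cyclotomic n ℤ) = 0 := fun n => by
    have := cyclotomic_mahlerMeasure_eq_one (R := ℤ) n
    rw [logM]
    rw [algebraMap_int_eq] at this
    rw [this, Real.log_one]
  simp only [← h]
  exact tendsto_mean_roots_irreducible (fun n => cyclotomic.irreducible n.succ_pos)
    (fun a b hab => Nat.succ_injective (cyclotomic_injective hab))
    (by simp [hM]) (fun n => by rw [natDegree_cyclotomic]; exact Nat.totient_pos.2 n.succ_pos)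
    hg hB

/-- Substituting `1 - X` preserves irreducibility. -/
theorem irreducible_comp_one_sub {p : ℤ[X]} (hp : Irreducible p) :
    Irreducible (p.comp (1 - X)) := by
  have h : (aeval (1 - X : ℤ[X])).comp (aeval (1 - X : ℤ[X])) = AlgHom.id ℤ ℤ[X] := by
    ext; simp
  have := (MulEquiv.irreducible_iff
    (AlgEquiv.ofAlgHom (aeval (1 - X : ℤ[X])) (aeval (1 - X : ℤ[X])) h h)).2 hp
  rwa [AlgEquiv.ofAlgHom_apply, ← comp_eq_aeval] at this

theorem natDegree_comp_one_sub (p : ℤ[X]) : (p.comp (1 - X)).natDegree = p.natDegree := by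
  rw [natDegree_comp, natDegree_sub, natDegree_sub_eq_left_of_natDegree_lt (by simp),
    natDegree_X, mul_one]

theorem rootSetC_comp_one_sub {p : ℤ[X]} (hp : p ≠ 0) :
    rootSetC (p.comp (1 - X)) = (rootSetC p).image (1 - ·) := by
  have hne : p.map (Int.castRingHom ℂ) ≠ 0 :=
    (Polynomial.map_ne_zero_iff (Int.castRingHom ℂ).injective_int).2 hp
  have hne' : (p.comp (1 - X)).map (Int.castRingHom ℂ) ≠ 0 := by
    refine (Polynomial.map_ne_zero_iff (Int.castRingHom ℂ).injective_int).2 fun h => hp ?_
    have := congrArg (fun q : ℤ[X] => q.comp (1 - X)) h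
    simpa [comp_assoc] using this
  ext z
  simp only [rootSetC, Multiset.mem_toFinset, Finset.mem_image, mem_roots hne]
  rw [mem_roots hne']
  simp only [IsRoot, Polynomial.map_comp, eval_comp, Polynomial.map_sub, Polynomial.map_one,
    map_X, eval_sub, eval_one, eval_X]
  exact ⟨fun h => ⟨1 - z, h, by ring⟩, fun ⟨w, h, e⟩ => by rw [← e, sub_sub_cancel]; exact h⟩

theorem min_abs_le {r : ℝ} (hr : 0 < r) : min 1 |r - 1| ≤ 2 * |log r| := by
  rcases le_total r 1 with h | h
  · rw [abs_of_nonpos (Real.log_nonpos hr.le h), abs_of_nonpos (by linarith : r - 1 ≤ 0)]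
    linarith [Real.log_le_sub_one_of_pos hr, min_le_right (1 : ℝ) (-(r - 1))]
  · rw [abs_of_nonneg (Real.log_nonneg h), abs_of_nonneg (by linarith : 0 ≤ r - 1)]
    have h1 := Real.one_sub_inv_le_log_of_pos hr
    rcases le_total r 2 with h2 | h2
    · have : r⁻¹ * r = 1 := inv_mul_cancel₀ hr.ne'
      nlinarith [min_le_right (1 : ℝ) (r - 1)]
    · have : r⁻¹ ≤ 2⁻¹ := inv_anti₀ two_pos h2
      norm_num at this
      linarith [min_le_left (1 : ℝ) (r - 1)]

/-- **Zhang's theorem** on the line `x + y = 1`: the algebraic numbers `α` such that `α` and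
`1 - α` both have small height are finite in number. -/
theorem bogomolov_line :
    ∃ c > 0, {α : ℂ | ∃ p : ℤ[X], Irreducible p ∧ aeval α p = 0 ∧
      logM p + logM (p.comp (1 - X)) < c * p.natDegree}.Finite := by
  by_contra hcon
  push Not at hcon
  -- a counterexample of degree above `n` for every `n`
  have hex : ∀ n : ℕ, ∃ p : ℤ[X], Irreducible p ∧ n + 1 < p.natDegree ∧
      logM p + logM (p.comp (1 - X)) < 1 / ((n : ℝ) + 1) * p.natDegree := by
    intro n
    by_contra hno
    push Not at hno
    have hfin := (finite_mahlerMeasure_le (n + 1) (Real.toNNReal (exp 1))).biUnion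
      (t := fun p => {α : ℂ | p ≠ 0 ∧ α ∈ rootSetC p}) fun p _ =>
        (rootSetC p).finite_toSet.subset fun α hα => hα.2
    refine hcon (1 / ((n : ℝ) + 1)) (by positivity) (hfin.subset ?_)
    rintro α ⟨p, hp, hroot, hlt⟩
    have hdeg : p.natDegree ≤ n + 1 := not_lt.1 fun h => (hno p hp h).not_gt hlt
    rw [Set.mem_iUnion₂]
    refine ⟨p, ⟨hdeg, ?_⟩, hp.ne_zero, ?_⟩
    · rw [Real.coe_toNNReal _ (exp_pos _).le]
      have hpos : 0 < (p.map (Int.castRingHom ℂ)).mahlerMeasure :=
        lt_of_lt_of_le one_pos (one_le_mahlerMeasure_of_ne_zero hp.ne_zero)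
      rw [← exp_log hpos]
      refine exp_le_exp.2 ?_
      have h1 := logM_nonneg (p.comp (1 - X))
      have h2 : 1 / ((n : ℝ) + 1) * p.natDegree ≤ 1 := by
        rw [div_mul_eq_mul_div, one_mul, div_le_one (by positivity)]
        exact_mod_cast hdeg
      show logM p ≤ 1
      linarith
    · rw [rootSetC, Multiset.mem_toFinset,
        mem_roots ((Polynomial.map_ne_zero_iff (Int.castRingHom ℂ).injective_int).2 hp.ne_zero),
        IsRoot, eval_map]
      rwa [aeval_def, algebraMap_int_eq] at hroot
  choose f hirr hd hlt using hex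
  have hdeg : Tendsto (fun n => (f n).natDegree) atTop atTop :=
    tendsto_atTop_mono (fun n => (hd n).le) (tendsto_add_atTop_nat 1)
  have hsum : Tendsto (fun n => (logM (f n) + logM ((f n).comp (1 - X))) / (f n).natDegree)
      atTop (𝓝 0) := by
    refine squeeze_zero (fun n => div_nonneg (add_nonneg (logM_nonneg _) (logM_nonneg _))
      (Nat.cast_nonneg _)) (fun n => ?_) tendsto_one_div_add_atTop_nhds_zero_nat
    rw [div_le_iff₀ (Nat.cast_pos.2 (by have := hd n; omega))]
    exact (hlt n).le
  have hM1 : Tendsto (fun n => logM (f n) / (f n).natDegree) atTop (𝓝 0) :=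
    squeeze_zero (fun n => div_nonneg (logM_nonneg _) (Nat.cast_nonneg _))
      (fun n => div_le_div_of_nonneg_right (by linarith [logM_nonneg ((f n).comp (1 - X))])
        (Nat.cast_nonneg _)) hsum
  have hM2 : Tendsto (fun n => logM ((f n).comp (1 - X)) / (f n).natDegree) atTop (𝓝 0) :=
    squeeze_zero (fun n => div_nonneg (logM_nonneg _) (Nat.cast_nonneg _))
      (fun n => div_le_div_of_nonneg_right (by linarith [logM_nonneg (f n)])
        (Nat.cast_nonneg _)) hsum
  set g : ℂ → ℝ := fun z => min 1 |‖1 - z‖ - 1| with hg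
  have hgc : Continuous g := by fun_prop
  have hg0 : ∀ z, 0 ≤ g z := fun z => le_min zero_le_one (abs_nonneg _)
  have hsep : ∀ n, ((f n).map (Int.castRingHom ℂ)).Separable := fun n =>
    separable_of_irreducible (hirr n) (by have := hd n; omega)
  have hlim := tendsto_mean_roots (Eventually.of_forall hsep)
    (Eventually.of_forall fun n => coeff_zero_ne_of_irreducible (hirr n)
      (by have := hd n; omega)) hdeg hM1
    (g := fun z => (g z : ℂ)) (Complex.continuous_ofReal.comp hgc) (B := 1) fun z => by
      rw [Complex.norm_real, Real.norm_of_nonneg (hg0 z)]; exact min_le_left _ _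
  have hzero : Tendsto (fun n => mean (rootSetC (f n)) fun z => (g z : ℂ)) atTop (𝓝 0) := by
    refine squeeze_zero_norm (fun n => ?_) (by simpa using hM2.const_mul 4)
    have hne := (hirr n).ne_zero
    have hq := irreducible_comp_one_sub (hirr n)
    have hqd : 2 ≤ ((f n).comp (1 - X)).natDegree := by
      rw [natDegree_comp_one_sub]; have := hd n; omega
    have hrad := radial_le (separable_of_irreducible hq (by omega))
      (coeff_zero_ne_of_irreducible hq hqd)
    have hz : ∀ z ∈ rootSetC (f n), 0 < ‖1 - z‖ := fun z hz => norm_pos_iff.2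
      (ne_zero_of_mem (separable_of_irreducible hq (by omega))
        (coeff_zero_ne_of_irreducible hq hqd)
        (by rw [rootSetC_comp_one_sub hne]; exact Finset.mem_image_of_mem _ hz))
    refine (norm_mean_le (φ := fun z => 2 * |log ‖1 - z‖|) fun z hz' => ?_).trans ?_
    · rw [Complex.norm_real, Real.norm_of_nonneg (hg0 z)]
      exact min_abs_le (hz z hz')
    · rw [card_rootSetC (hsep n), ← mul_div_assoc, ← Finset.mul_sum]
      refine div_le_div_of_nonneg_right ?_ (Nat.cast_nonneg _)
      rw [radial, rootSetC_comp_one_sub hne,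
        Finset.sum_image fun a _ b _ h => sub_right_injective h] at hrad
      linarith
  have heq := tendsto_nhds_unique hlim hzero
  have hpos : 0 < ∫ θ in (0 : ℝ)..2 * π, g (circleMap 0 1 θ) := by
    refine intervalIntegral.integral_pos (by positivity)
      (hgc.comp (continuous_circleMap 0 1)).continuousOn (fun θ _ => hg0 _)
      ⟨π, ⟨pi_pos.le, by linarith [pi_pos]⟩, ?_⟩
    show 0 < min 1 |‖1 - circleMap 0 1 π‖ - 1|
    rw [circleMap_zero, Complex.ofReal_one, one_mul, Complex.exp_pi_mul_I]
    norm_num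
  rw [circleAverage_def, intervalIntegral.integral_ofReal, Complex.real_smul, mul_eq_zero,
    Complex.ofReal_eq_zero, Complex.ofReal_eq_zero] at heq
  rcases heq with h | h
  · simp [pi_ne_zero] at h
  · linarith

end FA.Bilu

end
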