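import Fermat.Agent.BiluEquidistribution.Energy
import Mathlib.NumberTheory.MahlerMeasure
import Mathlib.RingTheory.Polynomial.Resultant.Basic
import Mathlib.Analysis.Complex.Polynomial.Basic

/-!
# Small height forces small angular sums

For a squarefree integer polynomial the resultant of `f` and `f'` is a nonzero integer, so the
energy of the roots is bounded below; together with the energy inequality this bounds every
angular sum in terms of the degree and the Mahler measure.
-/

set_option autoImplicit false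

noncomputable section

namespace FA.Bilu

open Finset Polynomial Real

variable {f : ℤ[X]}

/-- The complex roots of an integer polynomial. -/
def rootSetC (f : ℤ[X]) : Finset ℂ := (f.map (Int.castRingHom ℂ)).roots.toFinset

/-- The logarithm of the Mahler measure of an integer polynomial. -/
def logM (f : ℤ[X]) : ℝ := Real.log (f.map (Int.castRingHom ℂ)).mahlerMeasure

variable (hsep : (f.map (Int.castRingHom ℂ)).Separable)

theorem roots_eq_val {f : ℤ[X]} (hsep : (f.map (Int.castRingHom ℂ)).Separable) :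
    (rootSetC f).val = (f.map (Int.castRingHom ℂ)).roots := by
  rw [rootSetC, Multiset.toFinset_val, Multiset.dedup_eq_self.2 (nodup_roots hsep)]

theorem natDegree_mapC (f : ℤ[X]) : (f.map (Int.castRingHom ℂ)).natDegree = f.natDegree :=
  natDegree_map_eq_of_injective (Int.castRingHom ℂ).injective_int f

theorem leadingCoeff_mapC (f : ℤ[X]) :
    (f.map (Int.castRingHom ℂ)).leadingCoeff = (f.leadingCoeff : ℂ) := by
  rw [leadingCoeff_map_of_injective (Int.castRingHom ℂ).injective_int, eq_intCast]

include hsep in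
theorem card_rootSetC : #(rootSetC f) = f.natDegree := by
  rw [Finset.card_def, roots_eq_val hsep, ← natDegree_mapC f]
  exact (IsAlgClosed.splits _).natDegree_eq_card_roots.symm

include hsep in
theorem sum_rootSetC {M : Type*} [AddCommMonoid M] (φ : ℂ → M) :
    ∑ z ∈ rootSetC f, φ z = ((f.map (Int.castRingHom ℂ)).roots.map φ).sum := by
  rw [Finset.sum_eq_multiset_sum, roots_eq_val hsep]

include hsep in
theorem logM_eq :
    logM f = log |(f.leadingCoeff : ℝ)| + ∑ z ∈ rootSetC f, posLog ‖z‖ := by
  rw [logM, ← logMahlerMeasure_eq_log_MahlerMeasure,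
    logMahlerMeasure_eq_log_leadingCoeff_add_sum_log_roots, sum_rootSetC hsep, leadingCoeff_mapC,
    Complex.norm_intCast]

theorem one_le_abs_leadingCoeff (h0 : f.coeff 0 ≠ 0) : (1 : ℝ) ≤ |(f.leadingCoeff : ℝ)| := by
  rw [← Int.cast_abs, ← Int.cast_one, Int.cast_le]
  exact Int.one_le_abs (leadingCoeff_ne_zero.2 fun h => h0 (by simp [h]))

include hsep in
theorem ne_zero_of_mem (h0 : f.coeff 0 ≠ 0) {z : ℂ} (hz : z ∈ rootSetC f) : z ≠ 0 := by
  rintro rfl
  rw [rootSetC, Multiset.mem_toFinset, mem_roots hsep.ne_zero, IsRoot,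
    ← coeff_zero_eq_eval_zero, coeff_map, eq_intCast, Int.cast_eq_zero] at hz
  exact h0 hz

include hsep in
theorem radial_le (h0 : f.coeff 0 ≠ 0) : radial (rootSetC f) ≤ 2 * logM f := by
  have hz : ∀ z ∈ rootSetC f, ‖z‖ ≠ 0 := fun z hz =>
    norm_ne_zero_iff.2 (ne_zero_of_mem hsep h0 hz)
  have hprod : (1 : ℝ) ≤ |(f.leadingCoeff : ℝ)| * ∏ z ∈ rootSetC f, ‖z‖ := by
    have h := congrArg (‖·‖)
      (IsAlgClosed.splits (f.map (Int.castRingHom ℂ))).coeff_zero_eq_leadingCoeff_mul_prod_roots
    simp only [norm_mul, norm_pow, norm_neg, norm_one, one_pow, one_mul, coeff_map, eq_intCast,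
      leadingCoeff_mapC, Complex.norm_intCast] at h
    rw [← roots_eq_val hsep] at h
    rw [← norm_prod, Finset.prod_eq_multiset_prod, Multiset.map_id', ← h, ← Int.cast_abs,
      ← Int.cast_one, Int.cast_le]
    exact Int.one_le_abs h0
  have ha := one_le_abs_leadingCoeff h0
  have hlog := log_le_log one_pos hprod
  rw [log_one, log_mul (by linarith) (Finset.prod_ne_zero_iff.2 hz), log_prod hz] at hlog
  have h1 : ∀ x : ℝ, |log x| = 2 * posLog x - log x := fun x => by
    rw [posLog_apply]
    rcases le_total 0 (log x) with h | h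
    · rw [abs_of_nonneg h, max_eq_right h]; ring
    · rw [abs_of_nonpos h, max_eq_left h]; ring
  rw [radial, Finset.sum_congr rfl fun z _ => h1 ‖z‖, Finset.sum_sub_distrib, ← Finset.mul_sum,
    logM_eq hsep]
  linarith [Real.log_nonneg ha]

include hsep in
theorem energy_lower (h0 : f.coeff 0 ≠ 0) (hd : 0 < f.natDegree) :
    -((2 * (f.natDegree : ℝ) - 1) * log |(f.leadingCoeff : ℝ)|) ≤
      ∑ q ∈ (rootSetC f).offDiag, log ‖q.1 - q.2‖ := by
  classical
  set g := f.map (Int.castRingHom ℂ) with hg
  set s := rootSetC f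
  have hsplit : g.Splits := IsAlgClosed.splits g
  have hprod : g = C g.leadingCoeff * ∏ r ∈ s, (X - C r) := by
    show g = C g.leadingCoeff * (s.val.map fun r => X - C r).prod
    rw [roots_eq_val hsep]
    exact hsplit.eq_prod_roots
  have hderiv : ∀ r ∈ s, g.derivative.eval r = g.leadingCoeff * ∏ t ∈ s.erase r, (r - t) := by
    intro r hr
    conv_lhs => rw [hprod, ← Finset.mul_prod_erase s (fun r => X - C r) hr]
    simp [derivative_mul, eval_prod]
  have hres := resultant_eq_prod_eval g g.derivative (f.natDegree - 1)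
    (g.natDegree_derivative_le.trans (by rw [natDegree_mapC])) hsplit
  rw [natDegree_mapC, hg, derivative_map, resultant_map_map, ← derivative_map, ← hg,
    ← roots_eq_val hsep, Finset.prod_map_val, eq_intCast] at hres
  have hne : ∀ r ∈ s, ∀ t ∈ s.erase r, ‖r - t‖ ≠ 0 := fun r _ t ht =>
    norm_ne_zero_iff.2 (sub_ne_zero.2 (Finset.ne_of_mem_erase ht).symm)
  set a := |(f.leadingCoeff : ℝ)| with ha
  have ha1 : 1 ≤ a := one_le_abs_leadingCoeff h0
  have hlead : ‖g.leadingCoeff‖ = a := by rw [leadingCoeff_mapC, Complex.norm_intCast]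
  have hN := congrArg (‖·‖) hres
  simp only [norm_mul, norm_pow, norm_prod, Complex.norm_intCast, hlead] at hN
  rw [Finset.prod_congr rfl fun r hr => by rw [hderiv r hr, norm_mul, norm_prod, hlead],
    Finset.prod_mul_distrib, Finset.prod_const] at hN
  have hpos : 0 < a ^ (f.natDegree - 1) * (a ^ #s * ∏ r ∈ s, ∏ t ∈ s.erase r, ‖r - t‖) := by
    have := fun r hr => Finset.prod_pos fun t ht =>
      (norm_nonneg (r - t)).lt_of_ne' (hne r hr t ht)
    have := Finset.prod_pos this
    positivity
  rw [← hN] at hpos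
  have h1 : (1 : ℝ) ≤ |((f.resultant f.derivative f.natDegree (f.natDegree - 1) : ℤ) : ℝ)| := by
    rw [← Int.cast_abs, ← Int.cast_one, Int.cast_le]
    exact Int.one_le_abs fun h => by simp [h] at hpos
  rw [hN] at h1
  have hlog := log_le_log one_pos h1
  rw [log_one, log_mul (by positivity) (by
      refine mul_ne_zero (by positivity) (Finset.prod_ne_zero_iff.2 fun r hr => ?_)
      exact Finset.prod_ne_zero_iff.2 (hne r hr)),
    log_mul (by positivity) (Finset.prod_ne_zero_iff.2 fun r hr =>
      Finset.prod_ne_zero_iff.2 (hne r hr)),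
    log_prod fun r hr => Finset.prod_ne_zero_iff.2 (hne r hr),
    Finset.sum_congr rfl fun r hr => log_prod (hne r hr), log_pow, log_pow,
    card_rootSetC hsep, Nat.cast_sub (by omega : 1 ≤ f.natDegree)] at hlog
  rw [Finset.sum_finset_product' s.offDiag s (fun r => s.erase r) (fun q => by
      simp only [Finset.mem_offDiag, Finset.mem_erase]; tauto)
      (f := fun r t => log ‖r - t‖)]
  push_cast at hlog
  linarith

include hsep in
/-- **The quantitative form of Bilu's theorem.** -/
theorem angSum_le (h0 : f.coeff 0 ≠ 0) (hd : 0 < f.natDegree) {ε : ℝ} (hε : 0 < ε) (hε1 : ε ≤ 1)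
    (k : ℕ) :
    (1 - ε) ^ k / k * ‖angSum (rootSetC f) k‖ ^ 2 ≤
      2 * f.natDegree * logM f + (f.natDegree : ℝ) ^ 2 * ε - f.natDegree * log ε +
        4 * f.natDegree * logM f / ε := by
  have h1 := energy_le (fun z hz => ne_zero_of_mem hsep h0 hz) hε hε1 k
  have h2 := energy_lower hsep h0 hd
  have h3 := radial_le hsep h0
  have ha := Real.log_nonneg (one_le_abs_leadingCoeff h0)
  have hP : 0 ≤ ∑ z ∈ rootSetC f, posLog ‖z‖ := Finset.sum_nonneg fun z _ => posLog_nonneg
  rw [card_rootSetC hsep] at h1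
  have h4 : 2 * (f.natDegree : ℝ) * radial (rootSetC f) / ε ≤
      4 * f.natDegree * logM f / ε := by
    refine div_le_div_of_nonneg_right ?_ hε.le
    nlinarith [(Nat.cast_nonneg _ : (0 : ℝ) ≤ f.natDegree)]
  rw [logM_eq hsep] at h4 ⊢
  nlinarith

end FA.Bilu

end
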