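import Mathlib.Analysis.SpecialFunctions.Complex.LogBounds
import Mathlib.Analysis.SpecialFunctions.Log.PosLog
import Mathlib.Analysis.Complex.Basic

/-!
# The energy inequality on the unit circle

For distinct nonzero complex numbers `z₁, …, z_d` the sum of `log |zᵢ - zⱼ|` over `i ≠ j` is at
most its trivial bound less the square of each angular sum, as soon as the moduli are near `1`:
damp `log |1 - w|` to `log |1 - ρ w|` and expand the latter in powers of `w`.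
-/

set_option autoImplicit false

noncomputable section

namespace FA.Bilu

open Finset Real

/-- The point of the unit circle in the direction of `z`. -/
def dir (z : ℂ) : ℂ := z / (‖z‖ : ℂ)

/-- The angular sum. -/
def angSum (s : Finset ℂ) (k : ℕ) : ℂ := ∑ z ∈ s, dir z ^ k

/-- The total deviation of the moduli from `1`. -/
def radial (s : Finset ℂ) : ℝ := ∑ z ∈ s, |log ‖z‖|

theorem norm_dir {z : ℂ} (hz : z ≠ 0) : ‖dir z‖ = 1 := by
  rw [dir, norm_div, Complex.norm_real, Real.norm_of_nonneg (norm_nonneg z),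
    div_self (norm_ne_zero_iff.2 hz)]

/-- The quotient of the smaller of `a, b` by the larger, or its conjugate. -/
def ratio (a b : ℂ) : ℂ :=
  (exp (-|log ‖a‖ - log ‖b‖|) : ℂ) * (dir b * starRingEnd ℂ (dir a))

theorem norm_ratio_le_one {a b : ℂ} (ha : a ≠ 0) (hb : b ≠ 0) : ‖ratio a b‖ ≤ 1 := by
  rw [ratio, norm_mul, norm_mul, Complex.norm_conj, norm_dir ha, norm_dir hb, mul_one, mul_one,
    Complex.norm_real, Real.norm_of_nonneg (exp_pos _).le, exp_le_one_iff, neg_nonpos]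
  exact abs_nonneg _

theorem ratio_self {a : ℂ} (ha : a ≠ 0) : ratio a a = 1 := by
  rw [ratio, sub_self, abs_zero, neg_zero, exp_zero, Complex.mul_conj', norm_dir ha]
  simp

theorem ratio_comm (a b : ℂ) : ratio b a = starRingEnd ℂ (ratio a b) := by
  rw [ratio, ratio, map_mul, map_mul, Complex.conj_conj, Complex.conj_ofReal, abs_sub_comm]
  ring

theorem ratio_eq_div {a b : ℂ} (ha : a ≠ 0) (hb : b ≠ 0) (h : ‖b‖ ≤ ‖a‖) :
    ratio a b = b / a := by
  have h1 : exp (-|log ‖a‖ - log ‖b‖|) = ‖b‖ / ‖a‖ := by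
    rw [abs_of_nonneg (sub_nonneg.2 (log_le_log (norm_pos_iff.2 hb) h)), neg_sub, exp_sub,
      exp_log (norm_pos_iff.2 hb), exp_log (norm_pos_iff.2 ha)]
  have h2 : starRingEnd ℂ (dir a) = (dir a)⁻¹ := (Complex.inv_eq_conj (norm_dir ha)).symm
  have hna : (‖a‖ : ℂ) ≠ 0 := Complex.ofReal_ne_zero.2 (norm_ne_zero_iff.2 ha)
  have hnb : (‖b‖ : ℂ) ≠ 0 := Complex.ofReal_ne_zero.2 (norm_ne_zero_iff.2 hb)
  rw [ratio, h1, h2, dir, dir, Complex.ofReal_div]
  field_simp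

theorem norm_sub_eq {a b : ℂ} (ha : a ≠ 0) (hb : b ≠ 0) :
    ‖a - b‖ = max ‖a‖ ‖b‖ * ‖1 - ratio a b‖ := by
  rcases le_total ‖b‖ ‖a‖ with h | h
  · rw [max_eq_left h, ratio_eq_div ha hb h, ← norm_mul]
    congr 1
    field_simp
  · rw [max_eq_right h, ← Complex.norm_conj (1 - ratio a b), map_sub, map_one, ← ratio_comm,
      ratio_eq_div hb ha h, ← norm_mul, norm_sub_rev]
    congr 1
    field_simp

theorem log_max_le (x y : ℝ) :
    log (max x y) ≤ posLog x + posLog y := by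
  have h1 : ∀ t : ℝ, 0 ≤ posLog t := fun t => posLog_nonneg
  have h2 : ∀ t : ℝ, log t ≤ posLog t := fun t => le_max_right 0 (log t)
  rcases le_total x y with h | h
  · rw [max_eq_right h]; linarith [h1 x, h2 y]
  · rw [max_eq_left h]; linarith [h1 y, h2 x]

theorem norm_one_sub_le {w : ℂ} (hw : ‖w‖ ≤ 1) {ρ : ℝ} (hρ : 0 ≤ ρ) (hρ1 : ρ ≤ 1) :
    (1 + ρ) * ‖1 - w‖ ≤ 2 * ‖1 - (ρ : ℂ) * w‖ := by
  refine le_of_pow_le_pow_left₀ two_ne_zero (by positivity) ?_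
  rw [mul_pow, mul_pow, Complex.sq_norm, Complex.sq_norm, Complex.normSq_apply,
    Complex.normSq_apply]
  have hm : w.re * w.re + w.im * w.im ≤ 1 := by
    rw [← Complex.normSq_apply, ← Complex.sq_norm]
    exact pow_le_one₀ (norm_nonneg w) hw
  have hx : -1 ≤ w.re := by
    have := Complex.abs_re_le_norm w
    linarith [neg_abs_le w.re]
  simp only [Complex.sub_re, Complex.one_re, Complex.sub_im, Complex.one_im, Complex.mul_re,
    Complex.mul_im, Complex.ofReal_re, Complex.ofReal_im]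
  nlinarith [mul_nonneg (sub_nonneg.2 hρ1) (sub_nonneg.2 hm),
    mul_nonneg (mul_nonneg (sub_nonneg.2 hρ1) (sub_nonneg.2 hρ1)) (sub_nonneg.2 hx),
    mul_nonneg hρ (mul_nonneg (sub_nonneg.2 hρ1) (sub_nonneg.2 hm))]

theorem log_norm_sub_le {a b : ℂ} (ha : a ≠ 0) (hb : b ≠ 0) (hab : a ≠ b) {ε : ℝ} (hε : 0 < ε)
    (hε1 : ε ≤ 1) :
    log ‖a - b‖ ≤
      posLog ‖a‖ + posLog ‖b‖ + ε + log ‖1 - ((1 - ε : ℝ) : ℂ) * ratio a b‖ := by
  have hna := norm_pos_iff.2 ha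
  have hnb := norm_pos_iff.2 hb
  have hM : 0 < max ‖a‖ ‖b‖ := lt_max_of_lt_left hna
  have h0 : 0 < ‖a - b‖ := norm_pos_iff.2 (sub_ne_zero.2 hab)
  rw [norm_sub_eq ha hb] at h0 ⊢
  have h1 : 0 < ‖1 - ratio a b‖ := pos_of_mul_pos_right h0 hM.le
  set ρ := 1 - ε
  have hρ : 0 ≤ ρ := by simp only [ρ]; linarith
  have h3 := norm_one_sub_le (norm_ratio_le_one ha hb) hρ (by simp only [ρ]; linarith)
  have h4 : 0 < ‖1 - (ρ : ℂ) * ratio a b‖ := by nlinarith
  have h5 := log_le_log (by positivity) h3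
  rw [log_mul (by linarith) h1.ne', log_mul two_ne_zero h4.ne'] at h5
  have h6 : log 2 - log (1 + ρ) ≤ ε := by
    rw [← log_div two_ne_zero (by linarith)]
    refine (log_le_sub_one_of_pos (by positivity)).trans ?_
    rw [sub_le_iff_le_add, div_le_iff₀ (by linarith)]
    simp only [ρ]
    nlinarith
  rw [log_mul hM.ne' h1.ne']
  linarith [log_max_le ‖a‖ ‖b‖]

/-- `-log ‖1 - ρ w‖` as a series of cosines. -/
theorem hasSum_log_norm {w : ℂ} (hw : ‖w‖ ≤ 1) {ρ : ℝ} (hρ : 0 ≤ ρ) (hρ1 : ρ < 1) :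
    HasSum (fun n : ℕ => ρ ^ n / n * (w ^ n).re) (-log ‖1 - (ρ : ℂ) * w‖) := by
  have hz : ‖(ρ : ℂ) * w‖ < 1 := by
    rw [norm_mul, Complex.norm_real, Real.norm_of_nonneg hρ]
    exact lt_of_le_of_lt (mul_le_of_le_one_right hρ hw) hρ1
  have h := Complex.hasSum_re (Complex.hasSum_taylorSeries_neg_log hz)
  rw [Complex.neg_re, Complex.log_re] at h
  refine h.congr_fun fun n => ?_
  rw [← Complex.re_ofReal_mul]
  congr 1
  push_cast
  ring

theorem le_re_ratio_pow {a b : ℂ} (ha : a ≠ 0) (hb : b ≠ 0) (n : ℕ) :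
    (dir b ^ n * starRingEnd ℂ (dir a ^ n)).re - n * (|log ‖a‖| + |log ‖b‖|) ≤
      (ratio a b ^ n).re := by
  rw [ratio, mul_pow, mul_pow, ← map_pow, ← Complex.ofReal_pow, Complex.re_ofReal_mul]
  set x := (dir b ^ n * starRingEnd ℂ (dir a ^ n)).re
  have hx : |x| ≤ 1 := by
    refine (Complex.abs_re_le_norm _).trans (le_of_eq ?_)
    rw [norm_mul, Complex.norm_conj, norm_pow, norm_pow, norm_dir ha, norm_dir hb, one_pow,
      one_mul]
  set L := |log ‖a‖ - log ‖b‖|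
  have hL : L ≤ |log ‖a‖| + |log ‖b‖| := abs_sub _ _
  have hL0 : 0 ≤ L := abs_nonneg _
  rw [← exp_nat_mul]
  have h1 := add_one_le_exp ((n : ℝ) * -L)
  have h2 : exp ((n : ℝ) * -L) ≤ 1 := exp_le_one_iff.2 (by nlinarith [(n.cast_nonneg : (0:ℝ) ≤ n)])
  have hn : (0 : ℝ) ≤ n := n.cast_nonneg
  obtain ⟨h3, h4⟩ := abs_le.1 hx
  nlinarith [mul_le_mul_of_nonneg_left hL hn]

theorem le_sum_re_ratio_pow {s : Finset ℂ} (hs : ∀ z ∈ s, z ≠ 0) (n : ℕ) :
    ‖angSum s n‖ ^ 2 - 2 * (n * (#s * radial s)) ≤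
      ∑ q ∈ s ×ˢ s, (ratio q.1 q.2 ^ n).re := by
  refine le_trans (le_of_eq ?_) (Finset.sum_le_sum fun q hq =>
    le_re_ratio_pow (hs q.1 (mem_product.1 hq).1) (hs q.2 (mem_product.1 hq).2) n)
  rw [Finset.sum_sub_distrib, ← Complex.re_sum, ← Finset.mul_sum, Finset.sum_product,
    Finset.sum_product]
  congr 1
  · simp only [← Finset.sum_mul, ← Finset.mul_sum, ← map_sum]
    rw [← Complex.normSq_eq_norm_sq, angSum, Complex.mul_conj, Complex.ofReal_re]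
  · simp only [Finset.sum_add_distrib, Finset.sum_const, nsmul_eq_mul, ← Finset.mul_sum, radial]
    ring

/-- **The energy inequality.** -/
theorem energy_le {s : Finset ℂ} (hs : ∀ z ∈ s, z ≠ 0) {ε : ℝ} (hε : 0 < ε) (hε1 : ε ≤ 1)
    (k : ℕ) :
    (∑ q ∈ s.offDiag, log ‖q.1 - q.2‖) + (1 - ε) ^ k / k * ‖angSum s k‖ ^ 2 ≤
      2 * ((#s : ℝ) - 1) * (∑ z ∈ s, posLog ‖z‖) + (#s : ℝ) ^ 2 * ε - #s * log ε +
        2 * #s * radial s / ε := by
  set ρ := 1 - ε with hρdef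
  have hρ0 : 0 ≤ ρ := by linarith
  have hρ1 : ρ < 1 := by linarith
  set d : ℝ := (#s : ℝ)
  set T := radial s
  have hT : 0 ≤ T := Finset.sum_nonneg fun z _ => abs_nonneg _
  have hd : 0 ≤ d := Nat.cast_nonneg _
  -- the series
  have hsum : HasSum (fun n : ℕ => ρ ^ n / n * ∑ q ∈ s ×ˢ s, (ratio q.1 q.2 ^ n).re)
      (∑ q ∈ s ×ˢ s, -log ‖1 - (ρ : ℂ) * ratio q.1 q.2‖) := by
    simp only [Finset.mul_sum]
    exact hasSum_sum fun q hq => hasSum_log_norm (norm_ratio_le_one (hs q.1 (mem_product.1 hq).1)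
      (hs q.2 (mem_product.1 hq).2)) hρ0 hρ1
  have hg : HasSum (fun n : ℕ => ρ ^ n / n * (∑ q ∈ s ×ˢ s, (ratio q.1 q.2 ^ n).re) +
      2 * d * T * ρ ^ n - if n = k then ρ ^ k / k * ‖angSum s k‖ ^ 2 else 0)
      ((∑ q ∈ s ×ˢ s, -log ‖1 - (ρ : ℂ) * ratio q.1 q.2‖) + 2 * d * T * (1 - ρ)⁻¹ -
        ρ ^ k / k * ‖angSum s k‖ ^ 2) :=
    (hsum.add ((hasSum_geometric_of_lt_one hρ0 hρ1).mul_left _)).sub (hasSum_ite_eq k _)
  have hnn := hg.nonneg fun n => by
    have h1 := mul_le_mul_of_nonneg_left (le_sum_re_ratio_pow hs n)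
      (show (0 : ℝ) ≤ ρ ^ n / n by positivity)
    have h2 : ρ ^ n / n * (2 * (n * (d * T))) ≤ 2 * d * T * ρ ^ n := by
      rcases Nat.eq_zero_or_pos n with rfl | hn
      · simp; positivity
      · refine le_of_eq ?_
        have : (n : ℝ) ≠ 0 := Nat.cast_ne_zero.2 hn.ne'
        field_simp
    have h3 : 0 ≤ ρ ^ n / n * ‖angSum s n‖ ^ 2 := by positivity
    split_ifs with hk
    · subst hk; linarith
    · linarith
  rw [show (1 : ℝ) - ρ = ε by simp [hρdef], ← div_eq_mul_inv] at hnn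
  -- the diagonal
  have hsplit : ∑ q ∈ s ×ˢ s, -log ‖1 - (ρ : ℂ) * ratio q.1 q.2‖ =
      -(d * log ε) - ∑ q ∈ s.offDiag, log ‖1 - (ρ : ℂ) * ratio q.1 q.2‖ := by
    rw [← Finset.diag_union_offDiag, Finset.sum_union (Finset.disjoint_diag_offDiag _),
      Finset.sum_diag, Finset.sum_congr rfl fun z hz => by
        rw [ratio_self (hs z hz), mul_one, show (1 : ℂ) - (ρ : ℂ) = ((ε : ℝ) : ℂ) by
          simp [hρdef], Complex.norm_real, Real.norm_of_nonneg hε.le],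
      Finset.sum_const, nsmul_eq_mul, Finset.sum_neg_distrib]
    ring
  have hmain : ∑ q ∈ s.offDiag, log ‖q.1 - q.2‖ ≤
      ∑ q ∈ s.offDiag, (posLog ‖q.1‖ + posLog ‖q.2‖ + ε +
        log ‖1 - (ρ : ℂ) * ratio q.1 q.2‖) := Finset.sum_le_sum fun q hq => by
    obtain ⟨h1, h2, h3⟩ := mem_offDiag.1 hq
    exact log_norm_sub_le (hs _ h1) (hs _ h2) h3 hε hε1
  rw [Finset.sum_add_distrib, Finset.sum_add_distrib] at hmain
  have hP : ∑ q ∈ s.offDiag, (posLog ‖q.1‖ + posLog ‖q.2‖) =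
      2 * (d - 1) * ∑ z ∈ s, posLog ‖z‖ := by
    have h := Finset.sum_union (s₁ := s.diag) (s₂ := s.offDiag)
      (f := fun q : ℂ × ℂ => posLog ‖q.1‖ + posLog ‖q.2‖) (Finset.disjoint_diag_offDiag _)
    rw [Finset.diag_union_offDiag, Finset.sum_product, Finset.sum_diag] at h
    simp only [Finset.sum_add_distrib, Finset.sum_const, nsmul_eq_mul, ← Finset.mul_sum] at h
    rw [Finset.sum_add_distrib]
    simp only [Finset.sum_add_distrib] at *
    linarith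
  have hcard : ∑ _q ∈ s.offDiag, ε ≤ d ^ 2 * ε := by
    rw [Finset.sum_const, nsmul_eq_mul]
    refine mul_le_mul_of_nonneg_right ?_ hε.le
    rw [Finset.offDiag_card, sq, ← Nat.cast_mul]
    exact Nat.cast_le.2 (Nat.sub_le _ _)
  linarith

end FA.Bilu

end
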