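import Fermat.Agent.BiluEquidistribution.Discriminant
import Fermat.Agent.Equidistribution.Criterion
import Mathlib.MeasureTheory.Integral.CircleAverage
import Mathlib.RingTheory.Polynomial.GaussLemma
import Mathlib.RingTheory.Polynomial.Cyclotomic.Roots

/-!
# Bilu's theorem

The angular sums tend to zero, so the directions of the roots are equidistributed on the circle by
the theorem of Stone and Weierstrass; the radial deviation tends to zero, so the same holds of the
roots themselves against bounded continuous functions.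
-/

set_option autoImplicit false

noncomputable section

namespace FA.Bilu

open Filter Topology Finset Polynomial MeasureTheory Real
open FA.ThreePrimes (eAdd)
open FA.Equidist (circMean circMean_fourier fourier_coe_eq_eAdd norm_circMean_le circMean_sub
  integrable_circle)

/-- Averages over finite sets of complex numbers. -/
def mean (s : Finset ℂ) (g : ℂ → ℂ) : ℂ := (∑ z ∈ s, g z) / (#s : ℂ)

theorem mean_add (s : Finset ℂ) (g g' : ℂ → ℂ) :
    mean s (fun z => g z + g' z) = mean s g + mean s g' := by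
  rw [mean, mean, mean, Finset.sum_add_distrib, add_div]

theorem mean_sub (s : Finset ℂ) (g g' : ℂ → ℂ) :
    mean s (fun z => g z - g' z) = mean s g - mean s g' := by
  rw [mean, mean, mean, Finset.sum_sub_distrib, sub_div]

theorem norm_mean_le {s : Finset ℂ} {g : ℂ → ℂ} {φ : ℂ → ℝ} (h : ∀ z ∈ s, ‖g z‖ ≤ φ z) :
    ‖mean s g‖ ≤ (∑ z ∈ s, φ z) / #s := by
  rw [mean, norm_div, Complex.norm_natCast]
  exact div_le_div_of_nonneg_right (norm_sum_le_of_le s h) (Nat.cast_nonneg _)

theorem eAdd_arg (k : ℤ) {z : ℂ} (hz : z ≠ 0) :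
    eAdd (k * (Complex.arg z / (2 * π))) = dir z ^ k := by
  have h : dir z = Complex.exp (Complex.arg z * Complex.I) := by
    rw [dir, div_eq_iff (Complex.ofReal_ne_zero.2 (norm_ne_zero_iff.2 hz)), mul_comm,
      Complex.norm_mul_exp_arg_mul_I]
  rw [h, ← Complex.exp_int_mul, eAdd]
  congr 1
  have hπ : (π : ℂ) ≠ 0 := Complex.ofReal_ne_zero.2 pi_ne_zero
  push_cast
  field_simp

/-- Equidistribution of directions from the vanishing of all angular means. -/
theorem tendsto_mean_dir {s : ℕ → Finset ℂ} (hs : ∀ᶠ n in atTop, 0 < #(s n))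
    (h0 : ∀ᶠ n in atTop, ∀ z ∈ s n, z ≠ 0)
    (hk : ∀ k : ℕ, 0 < k → Tendsto (fun n => angSum (s n) k / (#(s n) : ℂ)) atTop (𝓝 0))
    (φ : C(AddCircle (1 : ℝ), ℂ)) :
    Tendsto (fun n => mean (s n) fun z => φ (Complex.arg z / (2 * π) : ℝ)) atTop
      (𝓝 (circMean φ)) := by
  set p : ℂ → AddCircle (1 : ℝ) := fun z => ((Complex.arg z / (2 * π) : ℝ) : AddCircle (1 : ℝ))
  show Tendsto (fun n => mean (s n) fun z => φ (p z)) atTop _
  have hspan : ∀ g ∈ Submodule.span ℂ (Set.range <| @fourier 1), Tendsto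
      (fun n => mean (s n) fun z => g (p z)) atTop (𝓝 (circMean g)) := by
    intro g hg
    induction hg using Submodule.span_induction with
    | mem g hg =>
      obtain ⟨h, rfl⟩ := hg
      rw [circMean_fourier]
      rcases lt_trichotomy h 0 with hh | hh | hh
      · rw [if_neg hh.ne]
        have hlim := (Complex.continuous_conj.tendsto 0).comp (hk h.natAbs (by omega))
        rw [map_zero] at hlim
        refine hlim.congr' ?_
        filter_upwards [h0] with n hn
        simp only [Function.comp_apply, mean, angSum, map_div₀, map_natCast, map_sum]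
        congr 1
        refine Finset.sum_congr rfl fun z hz => ?_
        show _ = fourier h ((_ : ℝ) : AddCircle (1 : ℝ))
        rw [fourier_coe_eq_eAdd, eAdd_arg h (hn z hz), map_pow,
          ← Complex.inv_eq_conj (norm_dir (hn z hz))]
        obtain ⟨m, rfl⟩ : ∃ m : ℕ, h = -(m : ℤ) := ⟨h.natAbs, by omega⟩
        rw [zpow_neg, zpow_natCast, inv_pow, Int.natAbs_neg, Int.natAbs_natCast]
      · subst hh
        rw [if_pos rfl]
        refine tendsto_const_nhds.congr' ?_
        filter_upwards [hs] with n hn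
        simp only [mean, fourier_zero, Finset.sum_const, nsmul_eq_mul, mul_one]
        rw [div_self (Nat.cast_ne_zero.2 hn.ne')]
      · rw [if_neg hh.ne']
        refine (hk h.natAbs (by omega)).congr' ?_
        filter_upwards [h0] with n hn
        simp only [mean, angSum]
        congr 1
        refine Finset.sum_congr rfl fun z hz => ?_
        show _ = fourier h ((_ : ℝ) : AddCircle (1 : ℝ))
        rw [fourier_coe_eq_eAdd, eAdd_arg h (hn z hz)]
        obtain ⟨m, rfl⟩ : ∃ m : ℕ, h = (m : ℤ) := ⟨h.natAbs, by omega⟩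
        rw [zpow_natCast, Int.natAbs_natCast]
    | zero => simp [mean, circMean]
    | add g g' _ _ hg hg' =>
      have hm : circMean (g + g') = circMean g + circMean g' := by
        simp only [circMean, ContinuousMap.add_apply]
        exact integral_add (integrable_circle g) (integrable_circle g')
      rw [hm]
      exact (hg.add hg').congr fun n => (mean_add _ _ _).symm
    | smul c g _ hg =>
      have hm : circMean (c • g) = c * circMean g := by
        simp only [circMean, ContinuousMap.smul_apply, smul_eq_mul]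
        exact integral_const_mul c _
      rw [hm]
      refine (hg.const_mul c).congr fun n => ?_
      simp only [mean, ContinuousMap.smul_apply, smul_eq_mul, ← Finset.mul_sum, mul_div_assoc]
  rw [Metric.tendsto_atTop]
  intro ε hε
  have hφ : φ ∈ (Submodule.span ℂ (Set.range <| @fourier 1)).topologicalClosure := by
    rw [span_fourier_closure_eq_top]; exact Submodule.mem_top
  rw [← SetLike.mem_coe, Submodule.topologicalClosure_coe, Metric.mem_closure_iff] at hφ
  obtain ⟨g, hg, hfg⟩ := hφ (ε / 3) (by linarith)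
  obtain ⟨N₀, hN₀⟩ := Metric.tendsto_atTop.1 (hspan g hg) (ε / 3) (by linarith)
  obtain ⟨N₁, hN₁⟩ := eventually_atTop.1 hs
  refine ⟨max N₀ N₁, fun n hn => ?_⟩
  have hd : (0 : ℝ) < #(s n) := Nat.cast_pos.2 (hN₁ n (le_of_max_le_right hn))
  have h1 : ‖mean (s n) (fun z => φ (p z)) - mean (s n) (fun z => g (p z))‖ ≤ ε / 3 := by
    rw [← mean_sub]
    refine (norm_mean_le (φ := fun _ => ε / 3) fun z _ => ?_).trans (le_of_eq ?_)
    · rw [← ContinuousMap.sub_apply]
      exact ((φ - g).norm_coe_le_norm _).trans (dist_eq_norm φ g ▸ hfg.le)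
    · rw [Finset.sum_const, nsmul_eq_mul, mul_div_cancel_left₀ _ hd.ne']
  have h2 : ‖circMean g - circMean φ‖ ≤ ε / 3 := by
    rw [← circMean_sub]
    refine (norm_circMean_le _).trans ?_
    rw [← dist_eq_norm, dist_comm]
    exact hfg.le
  have h3 := hN₀ n (le_of_max_le_left hn)
  rw [dist_eq_norm] at h3 ⊢
  calc ‖mean (s n) (fun z => φ (p z)) - circMean φ‖
      = ‖(mean (s n) (fun z => φ (p z)) - mean (s n) (fun z => g (p z))) +
        ((mean (s n) (fun z => g (p z)) - circMean g) + (circMean g - circMean φ))‖ := by ring_nf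
    _ < ε := by
      refine (norm_add_le _ _).trans_lt ?_
      have := norm_add_le (mean (s n) (fun z => g (p z)) - circMean g)
        (circMean g - circMean φ)
      linarith

/-- A continuous function on `ℂ`, read on the unit circle. -/
def onCircle (g : ℂ → ℂ) (hg : Continuous g) : C(AddCircle (1 : ℝ), ℂ) :=
  ⟨fun θ => g (fourier 1 θ), hg.comp (map_continuous (fourier 1))⟩

theorem onCircle_arg {g : ℂ → ℂ} (hg : Continuous g) {z : ℂ} (hz : z ≠ 0) :
    onCircle g hg (Complex.arg z / (2 * π) : ℝ) = g (dir z) := by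
  show g (fourier 1 _) = _
  rw [fourier_coe_eq_eAdd, eAdd_arg 1 hz, zpow_one]

theorem circMean_onCircle {g : ℂ → ℂ} (hg : Continuous g) :
    circMean (onCircle g hg) = circleAverage g 0 1 := by
  rw [circMean, AddCircle.integral_haarAddCircle, inv_one, one_smul,
    ← AddCircle.intervalIntegral_preimage 1 0, zero_add, circleAverage_def]
  have h := intervalIntegral.integral_comp_mul_left (a := 0) (b := 1)
    (fun θ => g (circleMap 0 1 θ)) (mul_ne_zero two_ne_zero pi_ne_zero)
  rw [mul_zero, mul_one] at h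
  rw [← h]
  refine intervalIntegral.integral_congr fun x _ => ?_
  show g (fourier 1 (x : AddCircle (1 : ℝ))) = g (circleMap 0 1 (2 * π * x))
  rw [fourier_coe_eq_eAdd, circleMap_zero, Complex.ofReal_one, one_mul, Int.cast_one, one_mul,
    eAdd]

/-- Equidistribution on the plane from vanishing angular means and radial deviation. -/
theorem tendsto_mean_of_angSum {s : ℕ → Finset ℂ} (hs : ∀ᶠ n in atTop, 0 < #(s n))
    (h0 : ∀ᶠ n in atTop, ∀ z ∈ s n, z ≠ 0)
    (hk : ∀ k : ℕ, 0 < k → Tendsto (fun n => angSum (s n) k / (#(s n) : ℂ)) atTop (𝓝 0))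
    (hr : Tendsto (fun n => radial (s n) / #(s n)) atTop (𝓝 0))
    {g : ℂ → ℂ} (hg : Continuous g) {B : ℝ} (hB : ∀ z, ‖g z‖ ≤ B) :
    Tendsto (fun n => mean (s n) g) atTop (𝓝 (circleAverage g 0 1)) := by
  have hB0 : 0 ≤ B := (norm_nonneg _).trans (hB 0)
  rw [← circMean_onCircle hg]
  refine tendsto_of_tendsto_of_dist (tendsto_mean_dir hs h0 hk (onCircle g hg)) ?_
  rw [Metric.tendsto_atTop]
  intro δ hδ
  -- uniform continuity near the circle
  obtain ⟨η, hη, huc⟩ := Metric.uniformContinuousOn_iff.1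
    ((isCompact_closedBall (0 : ℂ) 2).uniformContinuousOn_of_continuous hg.continuousOn)
    (δ / 2) (by linarith)
  obtain ⟨c, hc, hexp⟩ := Metric.continuous_iff.1 Real.continuous_exp 0 (min η 1)
    (lt_min hη one_pos)
  have hpt : ∀ z : ℂ, z ≠ 0 → ‖g z - g (dir z)‖ ≤ δ / 2 + 2 * B / c * |log ‖z‖| := by
    intro z hz
    rcases lt_or_ge |log ‖z‖| c with h | h
    · have h1 := hexp (log ‖z‖) (by rwa [Real.dist_eq, sub_zero])
      rw [exp_log (norm_pos_iff.2 hz), exp_zero, Real.dist_eq, lt_min_iff] at h1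
      have hd : ‖z - dir z‖ = |‖z‖ - 1| := by
        have e : z - dir z = ((‖z‖ - 1 : ℝ) : ℂ) * dir z := by
          rw [Complex.ofReal_sub, sub_mul, Complex.ofReal_one, one_mul, dir,
            mul_div_cancel₀ _ (Complex.ofReal_ne_zero.2 (norm_ne_zero_iff.2 hz))]
        rw [e, norm_mul, norm_dir hz, mul_one, Complex.norm_real, Real.norm_eq_abs]
      have h2 : z ∈ Metric.closedBall (0 : ℂ) 2 := by
        rw [mem_closedBall_zero_iff]; linarith [(abs_lt.1 h1.2).2]
      have h3 : dir z ∈ Metric.closedBall (0 : ℂ) 2 := by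
        rw [mem_closedBall_zero_iff, norm_dir hz]; norm_num
      have h4 := huc z h2 (dir z) h3 (by rw [dist_eq_norm, hd]; exact h1.1)
      rw [dist_eq_norm] at h4
      have : 0 ≤ 2 * B / c * |log ‖z‖| := by positivity
      linarith
    · have h1 : 2 * B ≤ 2 * B / c * |log ‖z‖| := by
        rw [div_mul_eq_mul_div, le_div_iff₀ hc]
        exact mul_le_mul_of_nonneg_left h (by linarith)
      linarith [norm_sub_le (g z) (g (dir z)), hB z, hB (dir z)]
  obtain ⟨N₀, hN₀⟩ := eventually_atTop.1
    (hs.and (h0.and ((hr.const_mul (2 * B / c)).eventually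
      (eventually_lt_nhds (show 2 * B / c * 0 < δ / 2 by linarith)))))
  refine ⟨N₀, fun n hn => ?_⟩
  obtain ⟨hd, hz, hrad⟩ := hN₀ n hn
  have hd' : (0 : ℝ) < #(s n) := Nat.cast_pos.2 hd
  rw [Real.dist_eq, sub_zero, abs_of_nonneg dist_nonneg, dist_eq_norm, norm_sub_rev, ← mean_sub]
  refine lt_of_le_of_lt (norm_mean_le (φ := fun z => δ / 2 + 2 * B / c * |log ‖z‖|)
    fun z hz' => ?_) ?_
  · rw [onCircle_arg hg (hz z hz')]
    exact hpt z (hz z hz')
  · rw [Finset.sum_add_distrib, Finset.sum_const, nsmul_eq_mul, ← Finset.mul_sum, add_div,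
      mul_div_cancel_left₀ _ hd'.ne', mul_div_assoc]
    show δ / 2 + 2 * B / c * (radial (s n) / _) < δ
    linarith

variable {f : ℕ → ℤ[X]}

theorem logM_nonneg (p : ℤ[X]) : 0 ≤ logM p := by
  rcases eq_or_ne p 0 with rfl | hp
  · simp [logM]
  · exact Real.log_nonneg (one_le_mahlerMeasure_of_ne_zero hp)

section

variable (hsep : ∀ᶠ n in atTop, ((f n).map (Int.castRingHom ℂ)).Separable)
  (h0 : ∀ᶠ n in atTop, (f n).coeff 0 ≠ 0)
  (hdeg : Tendsto (fun n => (f n).natDegree) atTop atTop)
  (hM : Tendsto (fun n => logM (f n) / (f n).natDegree) atTop (𝓝 0))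

include hsep hdeg in
theorem card_pos_eventually : ∀ᶠ n in atTop, 0 < #(rootSetC (f n)) := by
  filter_upwards [hsep, hdeg.eventually (eventually_gt_atTop 0)] with n h1 h2
  rwa [card_rootSetC h1]

include hsep h0 hM in
theorem tendsto_radial :
    Tendsto (fun n => radial (rootSetC (f n)) / #(rootSetC (f n))) atTop (𝓝 0) := by
  refine squeeze_zero' (Eventually.of_forall fun n =>
    div_nonneg (Finset.sum_nonneg fun z _ => abs_nonneg _) (Nat.cast_nonneg _)) ?_
    (by simpa using hM.const_mul 2)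
  filter_upwards [hsep, h0] with n h1 h2
  rw [card_rootSetC h1, ← mul_div_assoc]
  exact div_le_div_of_nonneg_right (radial_le h1 h2) (Nat.cast_nonneg _)

include hsep h0 hdeg hM in
theorem tendsto_angSum {k : ℕ} (hk : 0 < k) :
    Tendsto (fun n => angSum (rootSetC (f n)) k / (#(rootSetC (f n)) : ℂ)) atTop (𝓝 0) := by
  rw [Metric.tendsto_atTop]
  intro δ hδ
  have hkR : (0 : ℝ) < k := Nat.cast_pos.2 hk
  set ε := min (1 / 2) (δ ^ 2 / (4 * k * 2 ^ k)) with hεdef
  have hε : 0 < ε := lt_min (by norm_num) (by positivity)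
  have hε2 : ε ≤ 1 / 2 := min_le_left _ _
  -- the error terms are eventually below `ε`
  have hlim : Tendsto (fun n => 2 * (logM (f n) / (f n).natDegree) +
      -log ε * (((f n).natDegree : ℝ))⁻¹ + 4 / ε * (logM (f n) / (f n).natDegree))
      atTop (𝓝 0) := by
    have h1 : Tendsto (fun n => (((f n).natDegree : ℝ))⁻¹) atTop (𝓝 0) :=
      tendsto_inv_atTop_zero.comp (tendsto_natCast_atTop_atTop.comp hdeg)
    simpa using ((hM.const_mul 2).add (h1.const_mul (-log ε))).add (hM.const_mul (4 / ε))
  obtain ⟨N, hN⟩ := eventually_atTop.1 (hsep.and (h0.and ((hdeg.eventually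
    (eventually_gt_atTop 0)).and (hlim.eventually (eventually_lt_nhds hε)))))
  refine ⟨N, fun n hn => ?_⟩
  obtain ⟨h1, h2, h3, h4⟩ := hN n hn
  have hd : (0 : ℝ) < (f n).natDegree := Nat.cast_pos.2 h3
  have h5 := angSum_le h1 h2 h3 hε (by linarith) k
  rw [dist_zero_right, norm_div, Complex.norm_natCast, card_rootSetC h1, div_lt_iff₀ hd]
  set d : ℝ := ((f n).natDegree : ℝ)
  set S := ‖angSum (rootSetC (f n)) k‖
  have h6 : 2 * d * logM (f n) + d ^ 2 * ε - d * log ε + 4 * d * logM (f n) / ε =
      d ^ 2 * (2 * (logM (f n) / d) + -log ε * d⁻¹ + 4 / ε * (logM (f n) / d) + ε) := by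
    field_simp
    ring
  rw [h6] at h5
  have h7 : (1 / 2 : ℝ) ^ k / k * S ^ 2 < d ^ 2 * (2 * ε) := by
    refine lt_of_le_of_lt (le_trans ?_ h5) ?_
    · gcongr; linarith
    · gcongr; linarith
  have h8 : ε * (4 * k * 2 ^ k) ≤ δ ^ 2 := (le_div_iff₀ (by positivity)).1 (min_le_right _ _)
  rw [div_pow, one_pow, div_div, div_mul_eq_mul_div, one_mul, div_lt_iff₀ (by positivity)] at h7
  refine lt_of_pow_lt_pow_left₀ 2 (by positivity) ?_
  nlinarith [mul_le_mul_of_nonneg_left h8 (sq_nonneg d)]

include hsep h0 hdeg hM in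
/-- **Bilu's theorem.** -/
theorem tendsto_mean_roots {g : ℂ → ℂ} (hg : Continuous g) {B : ℝ} (hB : ∀ z, ‖g z‖ ≤ B) :
    Tendsto (fun n => mean (rootSetC (f n)) g) atTop (𝓝 (circleAverage g 0 1)) :=
  tendsto_mean_of_angSum (card_pos_eventually hsep hdeg)
    (by filter_upwards [hsep, h0] with n h1 h2 using fun z hz => ne_zero_of_mem h1 h2 hz)
    (fun _ hk => tendsto_angSum hsep h0 hdeg hM hk) (tendsto_radial hsep h0 hM) hg hB

end

/-- Irreducible integer polynomials of positive degree are squarefree over `ℂ`. -/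
theorem separable_of_irreducible {p : ℤ[X]} (hp : Irreducible p) (hd : p.natDegree ≠ 0) :
    (p.map (Int.castRingHom ℂ)).Separable := by
  have h := ((IsPrimitive.Int.irreducible_iff_irreducible_map_cast
    (hp.isPrimitive hd)).1 hp).separable.map (f := algebraMap ℚ ℂ)
  rwa [Polynomial.map_map, Subsingleton.elim ((algebraMap ℚ ℂ).comp (Int.castRingHom ℚ))
    (Int.castRingHom ℂ)] at h

theorem coeff_zero_ne_of_irreducible {p : ℤ[X]} (hp : Irreducible p) (hd : 2 ≤ p.natDegree) :
    p.coeff 0 ≠ 0 := by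
  intro h
  obtain ⟨q, rfl⟩ := X_dvd_iff.2 h
  have hq := (hp.isUnit_or_isUnit rfl).resolve_left not_isUnit_X
  rw [natDegree_X_mul hq.ne_zero, natDegree_eq_zero_of_isUnit hq] at hd
  omega

/-- **Northcott**: distinct polynomials with `logM p ≤ c deg p` have degree tending to infinity. -/
theorem tendsto_natDegree {c : ℝ} (hinj : Function.Injective f)
    (hM : ∀ n, logM (f n) ≤ c * (f n).natDegree) :
    Tendsto (fun n => (f n).natDegree) atTop atTop := by
  rw [tendsto_atTop]
  intro D
  rw [← Nat.cofinite_eq_atTop, Filter.eventually_cofinite]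
  refine ((finite_mahlerMeasure_le D (Real.toNNReal (exp (|c| * D)))).preimage
    hinj.injOn).subset fun n hn => ?_
  have hlt : (f n).natDegree < D := not_le.1 hn
  refine ⟨hlt.le, ?_⟩
  rw [Real.coe_toNNReal _ (exp_pos _).le]
  rcases eq_or_lt_of_le ((f n).map (Int.castRingHom ℂ)).mahlerMeasure_nonneg with h | h
  · rw [← h]; positivity
  · rw [← exp_log h]
    refine exp_le_exp.2 ((hM n).trans ?_)
    calc c * (f n).natDegree ≤ |c| * (f n).natDegree :=
          mul_le_mul_of_nonneg_right (le_abs_self c) (Nat.cast_nonneg _)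
      _ ≤ |c| * D := mul_le_mul_of_nonneg_left (Nat.cast_le.2 hlt.le) (abs_nonneg c)

/-- Bilu's theorem for a strict sequence of irreducible polynomials. -/
theorem tendsto_mean_roots_irreducible (hirr : ∀ n, Irreducible (f n))
    (hinj : Function.Injective f)
    (hM : Tendsto (fun n => logM (f n) / (f n).natDegree) atTop (𝓝 0))
    (hconst : ∀ n, 0 < (f n).natDegree) {g : ℂ → ℂ} (hg : Continuous g) {B : ℝ}
    (hB : ∀ z, ‖g z‖ ≤ B) :
    Tendsto (fun n => mean (rootSetC (f n)) g) atTop (𝓝 (circleAverage g 0 1)) := by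
  obtain ⟨c, hc⟩ := hM.bddAbove_range
  have hdeg := tendsto_natDegree hinj fun n =>
    (div_le_iff₀ (Nat.cast_pos.2 (hconst n))).1 (hc ⟨n, rfl⟩)
  refine tendsto_mean_roots (Eventually.of_forall fun n =>
    separable_of_irreducible (hirr n) (hconst n).ne') ?_ hdeg hM hg hB
  filter_upwards [hdeg.eventually (eventually_ge_atTop 2)] with n hn
  exact coeff_zero_ne_of_irreducible (hirr n) hn

end FA.Bilu

end
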